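/-
GATE-P / S56 [P-TW] node T6 (helper49, key S56-TW-ADAPT): the ADAPTER from the FROZEN hypotheses
of S56 (`habs`, `hTW`, `hsplit`, `hdet`, `p ≠ 2`) to the matrix hypotheses consumed by the
group-theoretic leaves (SigmaLemma / CliffordCore / GTGlue / H1Dir):

for a basis `b` of `ρbar.V` and `R := matOf b ρbar.ρ : G_ℚ →* Matrix (Fin 2) (Fin 2) k`
(`LinearMap.toMatrix b b (ρbar.ρ σ) = R σ` by `rfl`):
* `NoStableLine R`, `NoQuadSym R`, `∀ σ, SigmaLemma.IsSplit (R σ)`;
* `SigmaLemma.NoEigen (R.comp Γ₁.subtype)` for every subgroup `Γ₁` containing all commutators;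
* `SigmaLemma.NoEigen (R.comp Γ'.subtype)` for every subgroup of index `1` or `2`
  (the `hidx` binder of `CliffordCore.noEigen_restrict_normal`);
* `(R σ).det = (a : k)` whenever `σ` acts on `μ_p` by `μ ↦ μ ^ a`; `(R σ).det = 1` when `σ` fixes
  `μ_{p^(n+1)}`; `(2 : k) ≠ 0`, `(p : k) = 0`.
Prelude + Mathlib + GP/TW/Grp/Clifford + GP/TW/SigmaLemma only.
-/
import Fermat.Prelude.Def_GaloisRep_Residual
import Fermat.Prelude.Def_GaloisRep_LocalConditions
import Fermat.Agent.GP.TW.Grp.Clifford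
import Fermat.Agent.GP.TW.SigmaLemma

set_option autoImplicit false

namespace Fermat.Agent.GP.TW.Grp

open Matrix Module Polynomial TensorProduct
open Fermat.Agent.GP.TW

/-- `ℚ̄`. -/
local notation "Qb" => AlgebraicClosure ℚ
/-- `G_ℚ`. -/
local notation "GQ" => (AlgebraicClosure ℚ ≃ₐ[ℚ] AlgebraicClosure ℚ)

/-! ### abstract part: a representation on a plane with a basis -/

section abstract

variable {F : Type*} [Field F] {V : Type*} [AddCommGroup V] [Module F V] {Γ : Type*} [Group Γ]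

/-- matrix form of a representation on a plane with a chosen basis -/
noncomputable def matOf (b : Basis (Fin 2) F V) (ρ : Γ →* Module.End F V) :
    Γ →* Matrix (Fin 2) (Fin 2) F where
  toFun γ := LinearMap.toMatrix b b (ρ γ)
  map_one' := by rw [map_one]; exact LinearMap.toMatrix_one b
  map_mul' a c := by rw [map_mul]; exact LinearMap.toMatrix_mul b _ _

theorem matOf_apply (b : Basis (Fin 2) F V) (ρ : Γ →* Module.End F V) (γ : Γ) :
    matOf b ρ γ = LinearMap.toMatrix b b (ρ γ) := rfl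

theorem charpoly_matOf [Module.Finite F V] (b : Basis (Fin 2) F V) (ρ : Γ →* Module.End F V)
    (γ : Γ) :
    (matOf b ρ γ).charpoly = LinearMap.charpoly (ρ γ) := by
  rw [matOf_apply, LinearMap.charpoly_toMatrix]

theorem det_matOf (b : Basis (Fin 2) F V) (ρ : Γ →* Module.End F V) (γ : Γ) :
    (matOf b ρ γ).det = LinearMap.det (ρ γ) := by
  rw [matOf_apply, LinearMap.det_toMatrix]

theorem trace_matOf (b : Basis (Fin 2) F V) (ρ : Γ →* Module.End F V) (γ : Γ) :
    (matOf b ρ γ).trace = LinearMap.trace F V (ρ γ) := by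
  rw [matOf_apply, LinearMap.trace_eq_matrix_trace F b]

/-- the vector of `V` with coordinates `v` is moved by `ρ γ` to the vector with coordinates
`matOf b ρ γ *ᵥ v` -/
theorem matOf_mulVec (b : Basis (Fin 2) F V) (ρ : Γ →* Module.End F V) (γ : Γ) (v : Fin 2 → F) :
    ρ γ (b.equivFun.symm v) = b.equivFun.symm (matOf b ρ γ *ᵥ v) := by
  apply b.equivFun.injective
  rw [LinearEquiv.apply_symm_apply, matOf_apply]
  have h := LinearMap.toMatrix_mulVec_repr b b (ρ γ) (b.equivFun.symm v)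
  have h1 : (b.repr (b.equivFun.symm v) : Fin 2 → F) = v := by
    rw [← Basis.equivFun_apply, LinearEquiv.apply_symm_apply]
  rw [h1] at h
  rw [h, Basis.equivFun_apply]

/-- irreducibility under a subgroup, in submodule form, gives `NoStableLineOn` -/
theorem noStableLineOn_matOf (b : Basis (Fin 2) F V) (ρ : Γ →* Module.End F V) (Γ' : Subgroup Γ)
    (hirr : ∀ W : Submodule F V, (∀ σ ∈ Γ', ∀ x ∈ W, ρ σ x ∈ W) → W = ⊥ ∨ W = ⊤) :
    NoStableLineOn (matOf b ρ) Γ' := by
  intro v hv hst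
  have hx0 : b.equivFun.symm v ≠ 0 := by
    intro h0
    apply hv
    have := congrArg b.equivFun h0
    rwa [LinearEquiv.apply_symm_apply, map_zero] at this
  have hstab : ∀ σ ∈ Γ', ∀ x ∈ Submodule.span F {b.equivFun.symm v},
      ρ σ x ∈ Submodule.span F {b.equivFun.symm v} := by
    intro σ hσ x hx
    obtain ⟨a, rfl⟩ := Submodule.mem_span_singleton.1 hx
    obtain ⟨c, hc⟩ := hst σ hσ
    rw [map_smul, matOf_mulVec, hc, map_smul]
    exact Submodule.smul_mem _ _ (Submodule.smul_mem _ _ (Submodule.mem_span_singleton_self _))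
  rcases hirr _ hstab with h | h
  · exact hx0 (Submodule.span_singleton_eq_bot.1 h)
  · have h1 : finrank F (Submodule.span F {b.equivFun.symm v}) = 1 := finrank_span_singleton hx0
    have h2 : finrank F V = 2 := by
      rw [Module.finrank_eq_card_basis b, Fintype.card_fin]
    rw [h, finrank_top, h2] at h1
    omega

/-- the matrix form of the base change is the base change of the matrix form -/
theorem matOf_baseChange (K : Type*) [Field K] [Algebra F K] (b : Basis (Fin 2) F V)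
    (ρ : Γ →* Module.End F V) (ρK : Γ →* Module.End K (K ⊗[F] V))
    (hρK : ∀ γ, ρK γ = (ρ γ).baseChange K) :
    matOf (Algebra.TensorProduct.basis K b) ρK = mapK K (matOf b ρ) := by
  ext1 γ
  rw [matOf_apply, mapK_apply, matOf_apply, hρK, LinearMap.toMatrix_baseChange]

/-- `NoStableLineOn` in the language of `SigmaLemma.NoEigen` -/
theorem noEigen_of_noStableLineOn {k : Type*} [Field k] {ρ : Γ →* Matrix (Fin 2) (Fin 2) k}
    {Γ' : Subgroup Γ} (h : NoStableLineOn ρ Γ') : SigmaLemma.NoEigen (ρ.comp Γ'.subtype) := by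
  intro v hv hst
  exact h v hv (fun γ hγ => hst ⟨γ, hγ⟩)

theorem noEigen_of_noStableLine {k : Type*} [Field k] {ρ : Γ →* Matrix (Fin 2) (Fin 2) k}
    (h : NoStableLine ρ) : SigmaLemma.NoEigen ρ := by
  intro v hv hst
  exact h v hv hst

end abstract

/-! ### the frozen hypotheses -/

section frozen

variable {k : Type} [Field k]

/-- the matrix form of `ρbar` in the basis `b` -/
noncomputable def matRep (ρbar : ResidualGaloisRep k) (b : Basis (Fin 2) k ρbar.V) :
    GQ →* Matrix (Fin 2) (Fin 2) k :=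
  matOf b ρbar.ρ

theorem matRep_apply (ρbar : ResidualGaloisRep k) (b : Basis (Fin 2) k ρbar.V) (σ : GQ) :
    matRep ρbar b σ = LinearMap.toMatrix b b (ρbar.ρ σ) := rfl

/-- a basis of `ρbar.V` -/
noncomputable def stdBasis (ρbar : ResidualGaloisRep k) : Basis (Fin 2) k ρbar.V :=
  Module.finBasisOfFinrankEq k ρbar.V ρbar.finrank_eq

/-- `hdet` forces `p = 0` in `k` -/
theorem natCast_eq_zero_of_hdet (p : ℕ) (ρbar : ResidualGaloisRep k)
    (hdet : (GaloisRepAdic.ofResidualGaloisRep ρbar).DetIsCyclotomic p) : (p : k) = 0 := by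
  have h := hdet.1
  rwa [IsLocalRing.maximalIdeal_eq_bot, Ideal.mem_bot] at h

theorem two_ne_zero_of_hdet (p : ℕ) [hp : Fact p.Prime] (hp2 : p ≠ 2) (ρbar : ResidualGaloisRep k)
    (hdet : (GaloisRepAdic.ofResidualGaloisRep ρbar).DetIsCyclotomic p) : (2 : k) ≠ 0 := by
  intro h2
  have hp0 := natCast_eq_zero_of_hdet p ρbar hdet
  -- gcd(p, 2) = 1 gives 1 = 0 in k
  have hcop : Nat.Coprime p 2 := (Nat.coprime_primes hp.out Nat.prime_two).2 hp2
  have h2' : ((2 : ℕ) : k) = 0 := by exact_mod_cast h2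
  have h1 : ((1 : ℕ) : k) = 0 := by
    have hg : Nat.gcd p 2 = 1 := hcop
    obtain ⟨x, y, hxy⟩ : ∃ x y : ℤ, (1 : ℤ) = p * x + 2 * y := by
      refine ⟨Nat.gcdA p 2, Nat.gcdB p 2, ?_⟩
      have := Nat.gcd_eq_gcd_ab p 2
      rw [hg] at this
      exact_mod_cast this
    have hk : ((1 : ℤ) : k) = ((p : ℤ) : k) * (x : k) + ((2 : ℤ) : k) * (y : k) := by
      rw [hxy]; push_cast; ring
    have hp0' : ((p : ℤ) : k) = 0 := by exact_mod_cast hp0
    have h20 : ((2 : ℤ) : k) = 0 := by exact_mod_cast h2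
    rw [hp0', h20, zero_mul, zero_mul, add_zero] at hk
    exact_mod_cast hk
  exact one_ne_zero (by exact_mod_cast h1)

/-- `det ρbar σ = a` in `k` when `σ` acts on `μ_p` by `μ ↦ μ ^ a` -/
theorem det_eq_natCast_of_hdet (p : ℕ) (ρbar : ResidualGaloisRep k)
    (hdet : (GaloisRepAdic.ofResidualGaloisRep ρbar).DetIsCyclotomic p) (σ : GQ) (a : ℕ)
    (ha : ∀ μ : Qb, μ ^ p = 1 → σ μ = μ ^ a) : LinearMap.det (ρbar.ρ σ) = (a : k) := by
  have hp0 := natCast_eq_zero_of_hdet p ρbar hdet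
  have h := hdet.2 1 σ a (by simpa using ha)
  have hz : ((p ^ 1 : ℕ) : k) = 0 := by rw [pow_one]; exact hp0
  rw [hz, Ideal.span_singleton_eq_bot.2 rfl, Ideal.mem_bot, sub_eq_zero] at h
  exact h

/-- `det ρbar σ = 1` when `σ` fixes `μ_{p^(n+1)}` -/
theorem det_eq_one_of_hdet (p : ℕ) (ρbar : ResidualGaloisRep k)
    (hdet : (GaloisRepAdic.ofResidualGaloisRep ρbar).DetIsCyclotomic p) (n : ℕ) (σ : GQ)
    (hσ : ∀ ζ : Qb, ζ ^ p ^ (n + 1) = 1 → σ ζ = ζ) : LinearMap.det (ρbar.ρ σ) = 1 := by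
  have h := det_eq_natCast_of_hdet p ρbar hdet σ 1 (by
    intro μ hμ
    rw [pow_one]
    apply hσ
    rw [pow_succ, pow_mul', hμ, one_pow])
  rw [h, Nat.cast_one]

/-- **the adapter**: all matrix hypotheses from the frozen ones. -/
theorem matrix_hyps (p : ℕ) [Fact p.Prime] (hp2 : p ≠ 2) (ρbar : ResidualGaloisRep k)
    (habs : ρbar.IsAbsolutelyIrreducible)
    (hdet : (GaloisRepAdic.ofResidualGaloisRep ρbar).DetIsCyclotomic p)
    (hsplit : ∀ σ : GQ, ∃ α β : k, LinearMap.charpoly (ρbar.ρ σ) = (X - C α) * (X - C β))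
    (hTW : ∀ (K : Type) [Field K] [Algebra k K] (G : Subgroup GQ), G.index = 2 →
      ∀ V : Submodule K (ρbar.baseChange K).V,
        (∀ σ ∈ G, ∀ x ∈ V, (ρbar.baseChange K).ρ σ x ∈ V) → V = ⊥ ∨ V = ⊤)
    (b : Basis (Fin 2) k ρbar.V) :
    (2 : k) ≠ 0 ∧ (p : k) = 0 ∧
    NoStableLine (matRep ρbar b) ∧ NoQuadSym (matRep ρbar b) ∧
    (∀ σ, SigmaLemma.IsSplit (matRep ρbar b σ)) ∧
    (∀ Γ₁ : Subgroup GQ, (∀ a c : GQ, a * c * a⁻¹ * c⁻¹ ∈ Γ₁) →
      NoStableLineOn (matRep ρbar b) Γ₁ ∧ SigmaLemma.NoEigen ((matRep ρbar b).comp Γ₁.subtype)) ∧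
    (∀ Γ' : Subgroup GQ, Γ'.index = 1 ∨ Γ'.index = 2 →
      SigmaLemma.NoEigen ((matRep ρbar b).comp Γ'.subtype)) ∧
    (∀ (σ : GQ) (a : ℕ), (∀ μ : Qb, μ ^ p = 1 → σ μ = μ ^ a) → (matRep ρbar b σ).det = (a : k)) ∧
    (∀ (n : ℕ) (σ : GQ), (∀ ζ : Qb, ζ ^ p ^ (n + 1) = 1 → σ ζ = ζ) →
      (matRep ρbar b σ).det = 1) := by
  have h2 : (2 : k) ≠ 0 := two_ne_zero_of_hdet p hp2 ρbar hdet
  have hp0 := natCast_eq_zero_of_hdet p ρbar hdet
  -- the hypotheses over `K = AlgebraicClosure k`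
  have hK : matOf (Algebra.TensorProduct.basis (AlgebraicClosure k) b)
      (ρbar.baseChange (AlgebraicClosure k)).ρ = mapK (AlgebraicClosure k) (matRep ρbar b) :=
    matOf_baseChange (AlgebraicClosure k) b ρbar.ρ _ (fun γ => rfl)
  have habsK : NoStableLine (mapK (AlgebraicClosure k) (matRep ρbar b)) := by
    rw [noStableLine_iff_on_top, ← hK]
    apply noStableLineOn_matOf
    intro W hW
    exact habs W (fun σ x hx => hW σ (Subgroup.mem_top σ) x hx)
  have htwK : HtwK (AlgebraicClosure k) (matRep ρbar b) := by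
    intro Γ' hΓ'
    rw [← hK]
    apply noStableLineOn_matOf
    intro W hW
    exact hTW (AlgebraicClosure k) Γ' hΓ' W hW
  have hsq : ∀ a : AlgebraicClosure k, ∃ t : AlgebraicClosure k, t * t = a := by
    intro a
    obtain ⟨z, hz⟩ := IsAlgClosed.exists_eq_mul_self a
    exact ⟨z, hz.symm⟩
  obtain ⟨hL, hQ, hC⟩ := clifford_of_hyps h2 (AlgebraicClosure k) hsq habsK htwK
  refine ⟨h2, hp0, hL, hQ, ?_, ?_, ?_, ?_, ?_⟩
  · intro σ
    obtain ⟨α, β, h⟩ := hsplit σ
    exact ⟨α, β, by rw [matRep, charpoly_matOf, h]⟩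
  · intro Γ₁ hab
    exact ⟨hC Γ₁ hab, noEigen_of_noStableLineOn (hC Γ₁ hab)⟩
  · intro Γ' hΓ'
    rcases hΓ' with h1 | h2'
    · have htop : Γ' = ⊤ := Subgroup.index_eq_one.1 h1
      subst htop
      exact noEigen_of_noStableLineOn ((noStableLine_iff_on_top _).1 hL)
    · exact noEigen_of_noStableLineOn (noStableLineOn_of_mapK (AlgebraicClosure k) (htwK Γ' h2'))
  · intro σ a ha
    rw [matRep, det_matOf]
    exact det_eq_natCast_of_hdet p ρbar hdet σ a ha
  · intro n σ hσ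
    rw [matRep, det_matOf]
    exact det_eq_one_of_hdet p ρbar hdet n σ hσ

end frozen

end Fermat.Agent.GP.TW.Grp
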