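/-
GATE-P / S56 [P-TW] (helper49, key S56-TW-ADAPT): surjectivity of the mod `m` cyclotomic character
of `G_ℚ` in elementary form — for `a` prime to `m` there is `σ ∈ G_ℚ` with `σ μ = μ ^ a` for every
`m`-th root of unity `μ` (irreducibility of the cyclotomic polynomial over `ℚ` + conjugate roots
in the normal extension `ℚ̄/ℚ`).  Mathlib only.
-/
import Mathlib

set_option autoImplicit false

namespace Fermat.Agent.GP.TW.Grp

/-- `ℚ̄`. -/
local notation "Qb" => AlgebraicClosure ℚ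
/-- `G_ℚ`. -/
local notation "GQ" => (AlgebraicClosure ℚ ≃ₐ[ℚ] AlgebraicClosure ℚ)

/-- For `a` prime to `m` there is `σ ∈ G_ℚ` acting on `μ_m` by `μ ↦ μ ^ a`. -/
theorem exists_galois_pow (m : ℕ) [NeZero m] (a : ℕ) (ha : a.Coprime m) :
    ∃ σ : GQ, ∀ μ : Qb, μ ^ m = 1 → σ μ = μ ^ a := by
  have : NeZero ((m : ℕ) : ℚ) := ⟨by exact_mod_cast NeZero.ne m⟩
  have hcl : IsAlgClosure ℚ Qb := ⟨inferInstance, AlgebraicClosure.isAlgebraic ℚ⟩
  have hnorm : Normal ℚ Qb := IsAlgClosure.normal ℚ Qb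
  obtain ⟨ζ, hζ⟩ := HasEnoughRootsOfUnity.exists_primitiveRoot Qb m
  have hζa : IsPrimitiveRoot (ζ ^ a) m := hζ.pow_of_coprime a ha
  have hpos : 0 < m := Nat.pos_of_ne_zero (NeZero.ne m)
  have hconj : IsConjRoot ℚ (ζ ^ a) ζ := by
    unfold IsConjRoot
    rw [← Polynomial.cyclotomic_eq_minpoly_rat hζa hpos,
      ← Polynomial.cyclotomic_eq_minpoly_rat hζ hpos]
  obtain ⟨σ, hσ⟩ := IsConjRoot.exists_algEquiv hconj
  refine ⟨σ, fun μ hμ => ?_⟩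
  obtain ⟨i, -, rfl⟩ := hζ.eq_pow_of_pow_eq_one hμ
  rw [map_pow, hσ, ← pow_mul, ← pow_mul, mul_comm]

/-- prime modulus -/
theorem exists_galois_pow_prime (p : ℕ) [hp : Fact p.Prime] (a : ℕ) (ha : ¬ p ∣ a) :
    ∃ σ : GQ, ∀ μ : Qb, μ ^ p = 1 → σ μ = μ ^ a := by
  have : NeZero p := ⟨hp.out.ne_zero⟩
  exact exists_galois_pow p a ((Nat.Prime.coprime_iff_not_dvd hp.out).2 ha).symm

end Fermat.Agent.GP.TW.Grp
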