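/-
GATE-P / S56 [P-TW] (helper49, key S56-TW-ADAPT): the determinant of `ρbar` takes every value of
`𝔽_pˣ ⊆ kˣ` (frozen `hdet` + surjectivity of the cyclotomic character); in particular for `p ≠ 2, 3`
(e.g. `p = 5`, the `hdet5` binder of H1Dir) some `det ρbar σ` has square `≠ 1`.
-/
import Fermat.Agent.GP.TW.Grp.Adapter
import Fermat.Agent.GP.TW.Grp.CycSurj

set_option autoImplicit false

namespace Fermat.Agent.GP.TW.Grp

open Matrix Module

/-- `ℚ̄`. -/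
local notation "Qb" => AlgebraicClosure ℚ
/-- `G_ℚ`. -/
local notation "GQ" => (AlgebraicClosure ℚ ≃ₐ[ℚ] AlgebraicClosure ℚ)

variable {k : Type} [Field k]

/-- every `a` prime to `p` is a value of `det ρbar` -/
theorem exists_det_eq_natCast (p : ℕ) [Fact p.Prime] (ρbar : ResidualGaloisRep k)
    (hdet : (GaloisRepAdic.ofResidualGaloisRep ρbar).DetIsCyclotomic p) (a : ℕ) (ha : ¬ p ∣ a) :
    ∃ σ : GQ, LinearMap.det (ρbar.ρ σ) = (a : k) := by
  obtain ⟨σ, hσ⟩ := exists_galois_pow_prime p a ha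
  exact ⟨σ, det_eq_natCast_of_hdet p ρbar hdet σ a hσ⟩

/-- for `p ≠ 2, 3` some `det ρbar σ` has square `≠ 1` -/
theorem exists_det_sq_ne_one (p : ℕ) [hp : Fact p.Prime] (hp2 : p ≠ 2) (hp3 : p ≠ 3)
    (ρbar : ResidualGaloisRep k)
    (hdet : (GaloisRepAdic.ofResidualGaloisRep ρbar).DetIsCyclotomic p) :
    ∃ σ : GQ, LinearMap.det (ρbar.ρ σ) ^ 2 ≠ 1 := by
  have h2 : ¬ p ∣ 2 := fun h => hp2 ((Nat.prime_dvd_prime_iff_eq hp.out Nat.prime_two).1 h)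
  have h3 : ¬ p ∣ 3 := fun h => hp3 ((Nat.prime_dvd_prime_iff_eq hp.out Nat.prime_three).1 h)
  obtain ⟨σ, hσ⟩ := exists_det_eq_natCast p ρbar hdet 2 h2
  refine ⟨σ, ?_⟩
  rw [hσ]
  intro h
  have hp0 := natCast_eq_zero_of_hdet p ρbar hdet
  have h30 : ((3 : ℕ) : k) = 0 := by
    push_cast at h ⊢
    linear_combination h
  -- `gcd(p, 3) = 1`
  have hcop : Nat.gcd p 3 = 1 := (Nat.coprime_primes hp.out Nat.prime_three).2 hp3
  obtain ⟨x, y, hxy⟩ : ∃ x y : ℤ, (1 : ℤ) = p * x + 3 * y := by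
    refine ⟨Nat.gcdA p 3, Nat.gcdB p 3, ?_⟩
    have := Nat.gcd_eq_gcd_ab p 3
    rw [hcop] at this
    exact_mod_cast this
  have hk : ((1 : ℤ) : k) = ((p : ℤ) : k) * (x : k) + ((3 : ℤ) : k) * (y : k) := by
    rw [hxy]; push_cast; ring
  have hp0' : ((p : ℤ) : k) = 0 := by exact_mod_cast hp0
  have h30' : ((3 : ℤ) : k) = 0 := by exact_mod_cast h30
  rw [hp0', h30', zero_mul, zero_mul, add_zero] at hk
  exact one_ne_zero (by exact_mod_cast hk)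

/-- matrix form -/
theorem exists_matRep_det_sq_ne_one (p : ℕ) [Fact p.Prime] (hp2 : p ≠ 2) (hp3 : p ≠ 3)
    (ρbar : ResidualGaloisRep k)
    (hdet : (GaloisRepAdic.ofResidualGaloisRep ρbar).DetIsCyclotomic p)
    (b : Basis (Fin 2) k ρbar.V) : ∃ σ : GQ, (matRep ρbar b σ).det ^ 2 ≠ 1 := by
  obtain ⟨σ, hσ⟩ := exists_det_sq_ne_one p hp2 hp3 ρbar hdet
  exact ⟨σ, by rw [matRep, det_matOf]; exact hσ⟩

end Fermat.Agent.GP.TW.Grp
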