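/-
GATE-P / S56 [P-TW] group theory (helper49), file 1: `ad⁰` of a 2-dimensional representation
with no stable line and no "quadratic symmetry" has no proper nonzero stable subspace.
Matrix form: `ρ : Γ →* Matrix (Fin 2) (Fin 2) k`, conjugation action `T ↦ ρ γ * T * ρ γ⁻¹` on
traceless matrices.  Mathlib + DS/N4/Lin2 (2×2 toolkit) only.
-/
import Fermat.Agent.DS.N4.Lin2

set_option autoImplicit false

namespace Fermat.Agent.GP.TW.Grp

open Matrix Module
open Fermat.Agent.DS.N4

variable {k : Type*} [Field k] {Γ : Type*} [Group Γ]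

/-- No line of `k²` is stable under `ρ`. -/
def NoStableLine (ρ : Γ →* Matrix (Fin 2) (Fin 2) k) : Prop :=
  ∀ v : Fin 2 → k, v ≠ 0 → ¬ ∀ γ, ∃ c : k, ρ γ *ᵥ v = c • v

/-- No invertible traceless matrix is preserved up to sign by conjugation with `ρ`
(equivalently: `ρ` is not induced from a subgroup of index `≤ 2`, over any quadratic extension). -/
def NoQuadSym (ρ : Γ →* Matrix (Fin 2) (Fin 2) k) : Prop :=
  ∀ T : Matrix (Fin 2) (Fin 2) k, T.trace = 0 → T.det ≠ 0 →
    ¬ ∀ γ, ρ γ * T = T * ρ γ ∨ ρ γ * T = -(T * ρ γ)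

theorem map_mul_map_inv (ρ : Γ →* Matrix (Fin 2) (Fin 2) k) (γ : Γ) : ρ γ * ρ γ⁻¹ = 1 := by
  rw [← map_mul, mul_inv_cancel, map_one]

theorem map_inv_mul_map (ρ : Γ →* Matrix (Fin 2) (Fin 2) k) (γ : Γ) : ρ γ⁻¹ * ρ γ = 1 := by
  rw [← map_mul, inv_mul_cancel, map_one]

theorem det_map_ne_zero (ρ : Γ →* Matrix (Fin 2) (Fin 2) k) (γ : Γ) : (ρ γ).det ≠ 0 := by
  intro h
  have := congrArg Matrix.det (map_mul_map_inv ρ γ)
  rw [Matrix.det_mul, h, zero_mul, Matrix.det_one] at this
  exact zero_ne_one this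

/-- a matrix killing two independent vectors is zero -/
theorem eq_zero_of_mulVec_eq_zero {T : Matrix (Fin 2) (Fin 2) k} {v w : Fin 2 → k}
    (h : det2 v w ≠ 0) (hv : T *ᵥ v = 0) (hw : T *ᵥ w = 0) : T = 0 := by
  have := eq_smul_one_of_two_eigvec (M := T) (c := 0) h (by rw [hv, zero_smul])
    (by rw [hw, zero_smul])
  rw [this, zero_smul]

/-- For `T ≠ 0` with `T * T = 0` there is `v ≠ 0` spanning both kernel and image. -/
theorem exists_kernel_vector {T : Matrix (Fin 2) (Fin 2) k} (hT0 : T ≠ 0) (hsq : T * T = 0) :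
    ∃ v : Fin 2 → k, v ≠ 0 ∧ T *ᵥ v = 0 ∧ (∀ u, ∃ c : k, T *ᵥ u = c • v) ∧
      ∀ u, T *ᵥ u = 0 → ∃ c : k, u = c • v := by
  have hex : ∃ w : Fin 2 → k, T *ᵥ w ≠ 0 := by
    by_contra hcon
    push Not at hcon
    apply hT0
    apply eq_zero_of_mulVec_eq_zero (v := ![1, 0]) (w := ![0, 1])
    · simp [det2]
    · exact hcon _
    · exact hcon _
  obtain ⟨w, hw⟩ := hex
  have hTv : T *ᵥ (T *ᵥ w) = 0 := by
    rw [Matrix.mulVec_mulVec, hsq, Matrix.zero_mulVec]
  have hker : ∀ u, T *ᵥ u = 0 → ∃ c : k, u = c • (T *ᵥ w) := by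
    intro u hu
    apply exists_smul_of_det2_eq_zero hw
    by_contra hdet
    exact hT0 (eq_zero_of_mulVec_eq_zero hdet hTv hu)
  refine ⟨T *ᵥ w, hw, hTv, ?_, hker⟩
  intro u
  apply hker
  rw [Matrix.mulVec_mulVec, hsq, Matrix.zero_mulVec]

/-- A stable line `k·T` in the traceless matrices is impossible. -/
theorem no_stable_traceless_line {ρ : Γ →* Matrix (Fin 2) (Fin 2) k}
    (hL : NoStableLine ρ) (hQ : NoQuadSym ρ) {T : Matrix (Fin 2) (Fin 2) k} (hT0 : T ≠ 0)
    (htr : T.trace = 0) (hst : ∀ γ, ∃ c : k, ρ γ * T * ρ γ⁻¹ = c • T) : False := by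
  -- rewrite stability as `ρ γ * T = c • (T * ρ γ)`
  have hst' : ∀ γ, ∃ c : k, ρ γ * T = c • (T * ρ γ) := by
    intro γ
    obtain ⟨c, hc⟩ := hst γ
    refine ⟨c, ?_⟩
    have := congrArg (· * ρ γ) hc
    simp only [Matrix.mul_assoc, map_inv_mul_map, Matrix.mul_one, Matrix.smul_mul] at this
    exact this
  by_cases hdet : T.det = 0
  · -- nilpotent case: the kernel line is stable
    have hsq : T * T = 0 := by
      rw [sq_eq_trace_smul_sub, htr, hdet, zero_smul, zero_smul, sub_zero]
    obtain ⟨v, hv0, hTv, him, -⟩ := exists_kernel_vector hT0 hsq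
    apply hL v hv0
    intro γ
    -- v = T w' up to scalar: use the image description for `ρ γ v`
    obtain ⟨c, hc⟩ := hst' γ
    -- pick u with T u = d • v, d ≠ 0
    have hex : ∃ u : Fin 2 → k, T *ᵥ u ≠ 0 := by
      by_contra hcon
      push Not at hcon
      apply hT0
      apply eq_zero_of_mulVec_eq_zero (v := ![1, 0]) (w := ![0, 1])
      · simp [det2]
      · exact hcon _
      · exact hcon _
    obtain ⟨u, hu⟩ := hex
    obtain ⟨d, hd⟩ := him u
    have hd0 : d ≠ 0 := by
      rintro rfl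
      rw [zero_smul] at hd
      exact hu hd
    -- ρ γ (d v) = ρ γ (T u) = c T (ρ γ u) ∈ k v
    obtain ⟨e, he⟩ := him (ρ γ *ᵥ u)
    refine ⟨d⁻¹ * (c * e), ?_⟩
    have h1 : ρ γ *ᵥ (d • v) = (c * e) • v := by
      rw [← hd, Matrix.mulVec_mulVec, hc, Matrix.smul_mulVec, ← Matrix.mulVec_mulVec, he,
        smul_smul]
    rw [Matrix.mulVec_smul] at h1
    rw [mul_smul, ← h1, smul_smul, inv_mul_cancel₀ hd0, one_smul]
  · -- invertible case: contradiction with NoQuadSym
    apply hQ T htr hdet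
    intro γ
    obtain ⟨c, hc⟩ := hst' γ
    have hdets := congrArg Matrix.det hc
    rw [Matrix.det_mul, Matrix.det_smul, Matrix.det_mul, Fintype.card_fin] at hdets
    have hγ := det_map_ne_zero ρ γ
    have hc2 : c ^ 2 = 1 := by
      have h3 : (ρ γ).det * T.det * (c ^ 2 - 1) = 0 := by linear_combination -hdets
      rcases mul_eq_zero.mp h3 with h4 | h4
      · exact absurd h4 (mul_ne_zero hγ hdet)
      · linear_combination h4
    have hc' : c = 1 ∨ c = -1 := by
      have : (c - 1) * (c + 1) = 0 := by linear_combination hc2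
      rcases mul_eq_zero.mp this with h | h
      · left; linear_combination h
      · right; linear_combination h
    rcases hc' with rfl | rfl
    · left; rw [hc, one_smul]
    · right; rw [hc, neg_one_smul]


/-! ### the trace form and the orthogonal-complement argument -/

/-- the trace form `(T, S) ↦ tr (T S)` on 2×2 matrices -/
noncomputable def trForm (k : Type*) [Field k] :
    LinearMap.BilinForm k (Matrix (Fin 2) (Fin 2) k) :=
  LinearMap.mk₂ k (fun T S => (T * S).trace)
    (fun a b c => by simp [Matrix.add_mul, Matrix.trace_add])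
    (fun c a b => by simp [Matrix.trace_smul])
    (fun a b c => by simp [Matrix.mul_add, Matrix.trace_add])
    (fun c a b => by simp [Matrix.trace_smul])

theorem trForm_apply (T S : Matrix (Fin 2) (Fin 2) k) : trForm k T S = (T * S).trace := rfl

theorem trForm_comm (T S : Matrix (Fin 2) (Fin 2) k) : trForm k T S = trForm k S T := by
  rw [trForm_apply, trForm_apply, Matrix.trace_mul_comm]

theorem trForm_separatingLeft : (trForm k).SeparatingLeft := by
  intro T hT
  have h00 := hT !![1, 0; 0, 0]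
  have h01 := hT !![0, 0; 1, 0]
  have h10 := hT !![0, 1; 0, 0]
  have h11 := hT !![0, 0; 0, 1]
  simp only [trForm_apply, Matrix.trace_fin_two, Matrix.mul_apply, Fin.sum_univ_two,
    Matrix.of_apply, Matrix.cons_val', Matrix.cons_val_zero, Matrix.cons_val_one,
    Matrix.empty_val', Matrix.cons_val_fin_one] at h00 h01 h10 h11
  ext i j
  fin_cases i <;> fin_cases j <;> simp
  · linear_combination h00
  · linear_combination h01
  · linear_combination h10
  · linear_combination h11

theorem trForm_nondegenerate : (trForm k).Nondegenerate := by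
  refine ⟨trForm_separatingLeft, ?_⟩
  intro S hS
  apply trForm_separatingLeft
  intro T
  rw [trForm_comm]
  exact hS T

/-- the traceless matrices -/
noncomputable def sl2 (k : Type*) [Field k] : Submodule k (Matrix (Fin 2) (Fin 2) k) :=
  LinearMap.ker (Matrix.traceLinearMap (Fin 2) k k)

theorem mem_sl2 {T : Matrix (Fin 2) (Fin 2) k} : T ∈ sl2 k ↔ T.trace = 0 := by
  rw [sl2, LinearMap.mem_ker, Matrix.traceLinearMap_apply]

theorem finrank_sl2 : finrank k (sl2 k) = 3 := by
  have h := LinearMap.finrank_range_add_finrank_ker (Matrix.traceLinearMap (Fin 2) k k)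
  have hr : LinearMap.range (Matrix.traceLinearMap (Fin 2) k k) = ⊤ := by
    rw [LinearMap.range_eq_top]
    intro c
    refine ⟨!![c, 0; 0, 0], ?_⟩
    simp [Matrix.trace_fin_two]
  rw [hr, finrank_top, Module.finrank_matrix] at h
  simp only [Fintype.card_fin] at h
  have hk : finrank k k = 1 := Module.finrank_self k
  rw [sl2]
  omega

/-- **`ad⁰` is irreducible.**  A conjugation-stable subspace of the traceless matrices is `0` or
everything. -/
theorem eq_bot_or_forall_mem_of_stable (h2 : (2 : k) ≠ 0) {ρ : Γ →* Matrix (Fin 2) (Fin 2) k}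
    (hL : NoStableLine ρ) (hQ : NoQuadSym ρ)
    (W : Submodule k (Matrix (Fin 2) (Fin 2) k)) (hW : ∀ T ∈ W, T.trace = 0)
    (hst : ∀ γ, ∀ T ∈ W, ρ γ * T * ρ γ⁻¹ ∈ W) :
    W = ⊥ ∨ ∀ T : Matrix (Fin 2) (Fin 2) k, T.trace = 0 → T ∈ W := by
  by_contra hcon
  push Not at hcon
  obtain ⟨hWbot, T0, hT0tr, hT0W⟩ := hcon
  have hWle : W ≤ sl2 k := fun T hT => mem_sl2.2 (hW T hT)
  have hWlt : W < sl2 k := lt_of_le_of_ne hWle (fun h => hT0W (h ▸ mem_sl2.2 hT0tr))
  have hfin_lt : finrank k W < 3 := by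
    have := Submodule.finrank_lt_finrank_of_lt hWlt
    rwa [finrank_sl2] at this
  have hfin_pos : 1 ≤ finrank k W := Submodule.one_le_finrank_iff.2 hWbot
  -- a stable line gives a contradiction
  have hline : ∀ O : Submodule k (Matrix (Fin 2) (Fin 2) k), (∀ T ∈ O, T.trace = 0) →
      (∀ γ, ∀ T ∈ O, ρ γ * T * ρ γ⁻¹ ∈ O) → finrank k O = 1 → False := by
    intro O hO hOst hO1
    obtain ⟨⟨T, hTO⟩, hTne, hTspan⟩ := finrank_eq_one_iff'.1 hO1
    have hT0 : T ≠ 0 := fun h => hTne (Subtype.ext h)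
    refine no_stable_traceless_line hL hQ hT0 (hO T hTO) ?_
    intro γ
    obtain ⟨c, hc⟩ := hTspan ⟨ρ γ * T * ρ γ⁻¹, hOst γ T hTO⟩
    exact ⟨c, (congrArg Subtype.val hc).symm⟩
  have hcases : finrank k W = 1 ∨ finrank k W = 2 := by omega
  rcases hcases with h1 | h2'
  · exact hline W hW hst h1
  · -- the plane case: pass to the orthogonal complement of `W ⊔ k·1`
    set W2 : Submodule k (Matrix (Fin 2) (Fin 2) k) := W ⊔ Submodule.span k {1} with hW2
    have hone : finrank k (Submodule.span k {(1 : Matrix (Fin 2) (Fin 2) k)}) = 1 :=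
      finrank_span_singleton one_ne_zero
    have hinf : W ⊓ Submodule.span k {(1 : Matrix (Fin 2) (Fin 2) k)} = ⊥ := by
      rw [eq_bot_iff]
      rintro T ⟨hTW, hT1⟩
      obtain ⟨c, rfl⟩ := Submodule.mem_span_singleton.1 hT1
      have := hW _ hTW
      rw [Matrix.trace_smul, Matrix.trace_one, Fintype.card_fin, smul_eq_mul] at this
      have hc : c = 0 := by
        rcases mul_eq_zero.mp this with h | h
        · exact h
        · exact absurd (by exact_mod_cast h) h2
      rw [hc, zero_smul]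
      exact Submodule.mem_bot _ |>.2 rfl
    have hW2fin : finrank k W2 = 3 := by
      have := Submodule.finrank_sup_add_finrank_inf_eq W
        (Submodule.span k {(1 : Matrix (Fin 2) (Fin 2) k)})
      rw [hinf, finrank_bot, hone, h2'] at this
      omega
    set O := (trForm k).orthogonal W2 with hOdef
    have hOfin : finrank k O = 1 := by
      rw [hOdef, LinearMap.BilinForm.finrank_orthogonal trForm_nondegenerate, hW2fin,
        Module.finrank_matrix]
      simp
    have hOtr : ∀ S ∈ O, S.trace = 0 := by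
      intro S hS
      have := (LinearMap.BilinForm.mem_orthogonal_iff.1 hS) 1
        (Submodule.mem_sup_right (Submodule.mem_span_singleton_self _))
      rwa [trForm_apply, Matrix.one_mul] at this
    have hW2st : ∀ γ, ∀ T ∈ W2, ρ γ * T * ρ γ⁻¹ ∈ W2 := by
      intro γ T hT
      obtain ⟨a, ha, b, hb, rfl⟩ := Submodule.mem_sup.1 hT
      obtain ⟨c, rfl⟩ := Submodule.mem_span_singleton.1 hb
      rw [Matrix.mul_add, Matrix.add_mul]
      refine Submodule.add_mem _ (Submodule.mem_sup_left (hst γ a ha)) ?_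
      refine Submodule.mem_sup_right ?_
      rw [Matrix.mul_smul, Matrix.smul_mul, Matrix.mul_one, map_mul_map_inv]
      exact Submodule.smul_mem _ _ (Submodule.mem_span_singleton_self _)
    have hOst : ∀ γ, ∀ S ∈ O, ρ γ * S * ρ γ⁻¹ ∈ O := by
      intro γ S hS
      rw [hOdef, LinearMap.BilinForm.mem_orthogonal_iff]
      intro n hn
      have h1 := (LinearMap.BilinForm.mem_orthogonal_iff.1 hS) (ρ γ⁻¹ * n * ρ γ⁻¹⁻¹)
        (hW2st γ⁻¹ n hn)
      rw [inv_inv] at h1
      rw [trForm_apply] at h1 ⊢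
      rw [← h1]
      calc (n * (ρ γ * S * ρ γ⁻¹)).trace = ((n * (ρ γ * S)) * ρ γ⁻¹).trace := by
            rw [Matrix.mul_assoc n]
        _ = (ρ γ⁻¹ * (n * (ρ γ * S))).trace := Matrix.trace_mul_comm _ _
        _ = (ρ γ⁻¹ * n * ρ γ * S).trace := by simp only [Matrix.mul_assoc]
    exact hline O hOtr hOst hOfin

end Fermat.Agent.GP.TW.Grp
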