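/-
GATE-P / S56 [P-TW] group theory (helper49), file 2 (key S56-TW-ADAPT): the CLIFFORD step and the
"no quadratic symmetry" property, in matrix form, from hypotheses over an extension field `K ⊇ k`
in which every element is a square (e.g. `K = AlgebraicClosure k`):

* `HabsK`  : no `Γ`-stable line in `K²`                      (frozen `habs`),
* `HtwK`   : no `Γ'`-stable line in `K²` for every subgroup `Γ'` of index 2   (frozen `hTW`).

Output (over `k`, `2 ≠ 0`):
* `noStableLine_of_habsK`, `noQuadSym_of_hyps`;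
* `noEigen_of_normal` : for a normal subgroup `Γ₁` with abelian quotient, `ρ|Γ₁` has no common
  eigenvector in `k²` (Clifford: the `Γ₁`-stable lines are permuted by `Γ`).
Mathlib + DS/N4/Lin2 + GP/TW/Grp/AdIrred only.
-/
import Fermat.Agent.GP.TW.Grp.AdIrred

set_option autoImplicit false

namespace Fermat.Agent.GP.TW.Grp

open Matrix Module
open Fermat.Agent.DS.N4

variable {k : Type*} [Field k] {Γ : Type*} [Group Γ]

/-- extension of scalars of a matrix representation -/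
noncomputable def mapK (K : Type*) [Field K] [Algebra k K] (ρ : Γ →* Matrix (Fin 2) (Fin 2) k) :
    Γ →* Matrix (Fin 2) (Fin 2) K :=
  ((algebraMap k K).mapMatrix : Matrix (Fin 2) (Fin 2) k →+* Matrix (Fin 2) (Fin 2) K).toMonoidHom.comp ρ

theorem mapK_apply (K : Type*) [Field K] [Algebra k K] (ρ : Γ →* Matrix (Fin 2) (Fin 2) k) (γ : Γ) :
    mapK K ρ γ = (ρ γ).map (algebraMap k K) := rfl

/-- no stable line for the subgroup `Γ'` -/
def NoStableLineOn (ρ : Γ →* Matrix (Fin 2) (Fin 2) k) (Γ' : Subgroup Γ) : Prop :=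
  ∀ v : Fin 2 → k, v ≠ 0 → ¬ ∀ γ ∈ Γ', ∃ c : k, ρ γ *ᵥ v = c • v

/-- frozen `hTW`, matrix form over `K` -/
def HtwK (K : Type*) [Field K] [Algebra k K] (ρ : Γ →* Matrix (Fin 2) (Fin 2) k) : Prop :=
  ∀ Γ' : Subgroup Γ, Γ'.index = 2 → NoStableLineOn (mapK K ρ) Γ'

theorem map_mulVec_comp (K : Type*) [Field K] [Algebra k K] (A : Matrix (Fin 2) (Fin 2) k)
    (v : Fin 2 → k) :
    A.map (algebraMap k K) *ᵥ (algebraMap k K ∘ v) = algebraMap k K ∘ (A *ᵥ v) := by
  ext i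
  rw [Function.comp_apply, RingHom.map_mulVec]

theorem comp_ne_zero (K : Type*) [Field K] [Algebra k K] {v : Fin 2 → k} (hv : v ≠ 0) :
    (algebraMap k K ∘ v) ≠ 0 := by
  intro h
  apply hv
  ext i
  have := congrFun h i
  simp only [Function.comp_apply, Pi.zero_apply] at this
  exact (map_eq_zero (algebraMap k K)).1 this

theorem noStableLineOn_of_mapK (K : Type*) [Field K] [Algebra k K]
    {ρ : Γ →* Matrix (Fin 2) (Fin 2) k} {Γ' : Subgroup Γ}
    (h : NoStableLineOn (mapK K ρ) Γ') : NoStableLineOn ρ Γ' := by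
  intro v hv hst
  apply h (algebraMap k K ∘ v) (comp_ne_zero K hv)
  intro γ hγ
  obtain ⟨c, hc⟩ := hst γ hγ
  refine ⟨algebraMap k K c, ?_⟩
  rw [mapK_apply, map_mulVec_comp, hc]
  ext i
  simp [Function.comp_apply]

theorem noStableLine_iff_on_top (ρ : Γ →* Matrix (Fin 2) (Fin 2) k) :
    NoStableLine ρ ↔ NoStableLineOn ρ ⊤ := by
  constructor
  · intro h v hv hst
    exact h v hv (fun γ => hst γ (Subgroup.mem_top γ))
  · intro h v hv hst
    exact h v hv (fun γ _ => hst γ)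

theorem noStableLine_of_habsK (K : Type*) [Field K] [Algebra k K]
    {ρ : Γ →* Matrix (Fin 2) (Fin 2) k} (h : NoStableLine (mapK K ρ)) : NoStableLine ρ :=
  (noStableLine_iff_on_top ρ).2
    (noStableLineOn_of_mapK K ((noStableLine_iff_on_top (mapK K ρ)).1 h))

/-! ### index two from a dichotomy -/

/-- A subgroup `Γ'` with an element `γ₀ ∉ Γ'` such that `γ₀⁻¹ γ ∈ Γ'` for all `γ ∉ Γ'`
has index `2`. -/
theorem index_eq_two_of_dichotomy (Γ' : Subgroup Γ) (γ₀ : Γ) (h0 : γ₀ ∉ Γ')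
    (h : ∀ γ, γ ∉ Γ' → γ₀⁻¹ * γ ∈ Γ') : Γ'.index = 2 := by
  rw [Subgroup.index_eq_two_iff]
  refine ⟨γ₀⁻¹, fun b => ?_⟩
  by_cases hb : b ∈ Γ'
  · refine Or.inr ⟨hb, ?_⟩
    intro hcon
    -- b * γ₀⁻¹ ∈ Γ' and b ∈ Γ' give γ₀ ∈ Γ'
    have h1 : γ₀⁻¹ ∈ Γ' := by
      have := Γ'.mul_mem (Γ'.inv_mem hb) hcon
      rwa [← mul_assoc, inv_mul_cancel, one_mul] at this
    exact h0 (by simpa using Γ'.inv_mem h1)
  · refine Or.inl ⟨?_, hb⟩
    -- b⁻¹ ∉ Γ', so γ₀⁻¹ * b⁻¹ ∈ Γ', hence b * γ₀ ∈ Γ'... we need b * γ₀⁻¹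
    have hb' : b⁻¹ ∉ Γ' := fun hcon => hb (by simpa using Γ'.inv_mem hcon)
    have h1 := h b⁻¹ hb'
    -- (γ₀⁻¹ b⁻¹)⁻¹ = b γ₀ ∈ Γ'
    have h2 : b * γ₀ ∈ Γ' := by
      have := Γ'.inv_mem h1
      simpa [_root_.mul_inv_rev] using this
    -- γ₀ * γ₀ ∈ Γ' : γ₀ * γ₀ ∉ Γ' would give γ₀⁻¹ (γ₀ γ₀) = γ₀ ∈ Γ'
    have h3 : γ₀ * γ₀ ∈ Γ' := by
      by_contra hcon
      have := h _ hcon
      rw [← mul_assoc, inv_mul_cancel, one_mul] at this
      exact h0 this
    have h4 : b * γ₀⁻¹ = b * γ₀ * (γ₀ * γ₀)⁻¹ := by group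
    rw [h4]
    exact Γ'.mul_mem h2 (Γ'.inv_mem h3)

/-! ### generalities on `ρ γ *ᵥ v` -/

theorem map_mulVec_ne_zero (ρ : Γ →* Matrix (Fin 2) (Fin 2) k) (γ : Γ) {v : Fin 2 → k}
    (hv : v ≠ 0) : ρ γ *ᵥ v ≠ 0 := by
  intro h
  apply hv
  have h' : ρ γ⁻¹ *ᵥ (ρ γ *ᵥ v) = 0 := by rw [h, Matrix.mulVec_zero]
  rwa [Matrix.mulVec_mulVec, map_inv_mul_map, Matrix.one_mulVec] at h'

/-- the stabiliser of the line `k·v` -/
def lineStab (ρ : Γ →* Matrix (Fin 2) (Fin 2) k) (v : Fin 2 → k) (hv : v ≠ 0) : Subgroup Γ where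
  carrier := {γ | ∃ c : k, ρ γ *ᵥ v = c • v}
  one_mem' := ⟨1, by simp⟩
  mul_mem' := by
    rintro a b ⟨ca, ha⟩ ⟨cb, hb⟩
    refine ⟨cb * ca, ?_⟩
    rw [map_mul, ← Matrix.mulVec_mulVec, hb, Matrix.mulVec_smul, ha, smul_smul]
  inv_mem' := by
    rintro a ⟨ca, ha⟩
    have hca : ca ≠ 0 := by
      rintro rfl
      rw [zero_smul] at ha
      exact map_mulVec_ne_zero ρ a hv ha
    refine ⟨ca⁻¹, ?_⟩
    have := congrArg (fun u => ca⁻¹ • (ρ a⁻¹ *ᵥ u)) ha
    simp only [Matrix.mulVec_mulVec, map_inv_mul_map, Matrix.one_mulVec, Matrix.mulVec_smul,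
      smul_smul, inv_mul_cancel₀ hca, one_smul] at this
    exact this.symm

theorem mem_lineStab {ρ : Γ →* Matrix (Fin 2) (Fin 2) k} {v : Fin 2 → k} {hv : v ≠ 0} {γ : Γ} :
    γ ∈ lineStab ρ v hv ↔ ∃ c : k, ρ γ *ᵥ v = c • v := Iff.rfl

/-- transport of a (skew-)commutation relation to the inverse -/
theorem mul_map_inv_eq_smul (ρ : Γ →* Matrix (Fin 2) (Fin 2) k) (γ : Γ)
    {T : Matrix (Fin 2) (Fin 2) k} {c : k} (h : ρ γ * T = c • (T * ρ γ)) :
    T * ρ γ⁻¹ = c • (ρ γ⁻¹ * T) := by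
  have := congrArg (fun X => ρ γ⁻¹ * X * ρ γ⁻¹) h
  simp only [Matrix.mul_smul, Matrix.smul_mul] at this
  rw [← Matrix.mul_assoc, map_inv_mul_map, Matrix.one_mul] at this
  rw [this, Matrix.mul_assoc, Matrix.mul_assoc, map_mul_map_inv, Matrix.mul_one]

/-! ### (iii) no quadratic symmetry -/

section sq

variable {K : Type*} [Field K]

/-- an invertible traceless matrix over a field in which every element is a square has an
eigenvector with nonzero eigenvalue -/
theorem exists_eigvec_of_traceless (hsq : ∀ a : K, ∃ t : K, t * t = a)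
    {T : Matrix (Fin 2) (Fin 2) K} (htr : T.trace = 0) (hdet : T.det ≠ 0) :
    ∃ (t : K) (v : Fin 2 → K), t ≠ 0 ∧ v ≠ 0 ∧ T *ᵥ v = t • v := by
  obtain ⟨t, ht⟩ := hsq (-T.det)
  have hroot : T.charpoly.IsRoot t := by
    rw [isRoot_charpoly_fin_two_iff, htr]
    linear_combination ht
  obtain ⟨v, hv0, hv⟩ := exists_eigvec_of_isRoot hroot
  refine ⟨t, v, ?_, hv0, hv⟩
  rintro rfl
  apply hdet
  have : -T.det = 0 := by rw [← ht, mul_zero]
  exact neg_eq_zero.1 this

/-- the eigenspace of a traceless matrix for a nonzero eigenvalue is a line (`2 ≠ 0`) -/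
theorem det2_eq_zero_of_eigvecs (h2 : (2 : K) ≠ 0) {T : Matrix (Fin 2) (Fin 2) K}
    (htr : T.trace = 0) {t : K} (ht : t ≠ 0) {v w : Fin 2 → K} (hv : T *ᵥ v = t • v)
    (hw : T *ᵥ w = t • w) : det2 v w = 0 := by
  by_contra h
  have hT := eq_smul_one_of_two_eigvec h hv hw
  rw [hT] at htr
  simp only [Matrix.trace_fin_two, Matrix.smul_apply, Matrix.one_apply_eq, smul_eq_mul,
    mul_one] at htr
  have : (2 : K) * t = 0 := by linear_combination htr
  rcases mul_eq_zero.1 this with h | h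
  · exact h2 h
  · exact ht h

/-- **(iii)**: no stable line for `Γ` and for its subgroups of index `2`, over a field in which
every element is a square, excludes a quadratic symmetry. -/
theorem noQuadSym_of_sq (h2 : (2 : K) ≠ 0) (hsq : ∀ a : K, ∃ t : K, t * t = a)
    {ρ : Γ →* Matrix (Fin 2) (Fin 2) K} (hL : NoStableLine ρ)
    (hI2 : ∀ Γ' : Subgroup Γ, Γ'.index = 2 → NoStableLineOn ρ Γ') : NoQuadSym ρ := by
  intro T htr hdet hT
  obtain ⟨t, v, ht, hv0, hv⟩ := exists_eigvec_of_traceless hsq htr hdet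
  -- the commuting subgroup
  let Γ' : Subgroup Γ :=
    { carrier := {γ | ρ γ * T = T * ρ γ}
      one_mem' := by simp
      mul_mem' := by
        intro a b ha hb
        change ρ a * T = T * ρ a at ha
        change ρ b * T = T * ρ b at hb
        change ρ (a * b) * T = T * ρ (a * b)
        rw [map_mul, Matrix.mul_assoc, hb, ← Matrix.mul_assoc, ha, Matrix.mul_assoc]
      inv_mem' := by
        intro a ha
        change ρ a * T = T * ρ a at ha
        change ρ a⁻¹ * T = T * ρ a⁻¹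
        have := mul_map_inv_eq_smul ρ a (T := T) (c := 1) (by rw [one_smul]; exact ha)
        rw [one_smul] at this
        exact this.symm }
  have hmem : ∀ γ, γ ∈ Γ' ↔ ρ γ * T = T * ρ γ := fun γ => Iff.rfl
  have hstab : ∀ γ ∈ Γ', ∃ c : K, ρ γ *ᵥ v = c • v := by
    intro γ hγ
    apply exists_smul_of_det2_eq_zero hv0
    apply det2_eq_zero_of_eigvecs h2 htr ht hv
    rw [Matrix.mulVec_mulVec, ← (hmem γ).1 hγ, ← Matrix.mulVec_mulVec, hv, Matrix.mulVec_smul]
  by_cases htop : ∀ γ, γ ∈ Γ'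
  · exact hL v hv0 (fun γ => hstab γ (htop γ))
  · push Not at htop
    obtain ⟨γ₀, hγ₀⟩ := htop
    have hidx : Γ'.index = 2 := by
      apply index_eq_two_of_dichotomy Γ' γ₀ hγ₀
      intro γ hγ
      have h1 : ρ γ * T = -(T * ρ γ) := (hT γ).resolve_left (fun h => hγ ((hmem γ).2 h))
      have h0 : ρ γ₀ * T = -(T * ρ γ₀) := (hT γ₀).resolve_left (fun h => hγ₀ ((hmem γ₀).2 h))
      have h0' : T * ρ γ₀⁻¹ = -(ρ γ₀⁻¹ * T) := by
        have := mul_map_inv_eq_smul ρ γ₀ (T := T) (c := -1) (by rw [neg_one_smul]; exact h0)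
        rw [neg_one_smul] at this
        exact this
      rw [hmem, map_mul, Matrix.mul_assoc, h1, Matrix.mul_neg, ← Matrix.mul_assoc,
        ← Matrix.mul_assoc, h0', Matrix.neg_mul]
    exact hI2 Γ' hidx v hv0 hstab

end sq

/-- descent of `NoQuadSym` along a field extension -/
theorem noQuadSym_of_mapK (K : Type*) [Field K] [Algebra k K]
    {ρ : Γ →* Matrix (Fin 2) (Fin 2) k} (h : NoQuadSym (mapK K ρ)) : NoQuadSym ρ := by
  intro T htr hdet hT
  apply h (T.map (algebraMap k K))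
  · have := congrArg (algebraMap k K) htr
    rw [map_zero] at this
    rw [← this]
    simp [Matrix.trace_fin_two]
  · have : (T.map (algebraMap k K)).det = algebraMap k K T.det := by
      rw [← RingHom.mapMatrix_apply, ← RingHom.map_det]
    rw [this]
    exact fun h0 => hdet ((map_eq_zero (algebraMap k K)).1 h0)
  · intro γ
    rcases hT γ with h1 | h1
    · left
      rw [mapK_apply, ← Matrix.map_mul, h1, Matrix.map_mul]
    · right
      rw [mapK_apply, ← Matrix.map_mul, ← Matrix.map_mul, h1]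
      exact Matrix.map_neg (algebraMap k K) (by simp) _

/-! ### (iv) Clifford -/

/-- **(iv) Clifford step**: a subgroup `Γ₁` containing all commutators has no stable line. -/
theorem noStableLineOn_of_commutators (h2 : (2 : k) ≠ 0) {ρ : Γ →* Matrix (Fin 2) (Fin 2) k}
    (hL : NoStableLine ρ) (hQ : NoQuadSym ρ)
    (hI2 : ∀ Γ' : Subgroup Γ, Γ'.index = 2 → NoStableLineOn ρ Γ')
    (Γ₁ : Subgroup Γ) (hab : ∀ a b : Γ, a * b * a⁻¹ * b⁻¹ ∈ Γ₁) : NoStableLineOn ρ Γ₁ := by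
  intro v hv0 hst
  -- normality
  have hnorm : ∀ γ h, h ∈ Γ₁ → γ⁻¹ * h * γ ∈ Γ₁ := by
    intro γ h hh
    have h1 := hab γ⁻¹ h
    have h2' : γ⁻¹ * h * γ = γ⁻¹ * h * γ⁻¹⁻¹ * h⁻¹ * h := by group
    rw [h2']
    exact Γ₁.mul_mem h1 hh
  by_cases hsc : ∀ h ∈ Γ₁, ∃ c : k, ρ h = c • (1 : Matrix (Fin 2) (Fin 2) k)
  · -- Case A: `Γ₁` acts by scalars; `ρ` is projectively abelian
    have hex : ∃ γ₀, ∀ c : k, ρ γ₀ ≠ c • (1 : Matrix (Fin 2) (Fin 2) k) := by
      by_contra hcon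
      push Not at hcon
      apply hL v hv0
      intro γ
      obtain ⟨c, hc⟩ := hcon γ
      exact ⟨c, by rw [hc, Matrix.smul_mulVec, Matrix.one_mulVec]⟩
    obtain ⟨γ₀, hγ₀⟩ := hex
    set g := ρ γ₀ with hg
    set T : Matrix (Fin 2) (Fin 2) k := g - (g.trace / 2) • (1 : Matrix (Fin 2) (Fin 2) k) with hTdef
    have htr : T.trace = 0 := by
      rw [hTdef, Matrix.trace_sub, Matrix.trace_smul, Matrix.trace_one, Fintype.card_fin,
        smul_eq_mul]
      push_cast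
      field_simp
      ring
    have hT0 : T ≠ 0 := by
      intro h0
      apply hγ₀ (g.trace / 2)
      rw [hTdef, sub_eq_zero] at h0
      exact h0
    apply no_stable_traceless_line hL hQ hT0 htr
    intro γ
    obtain ⟨c, hc⟩ := hsc _ (hab γ γ₀)
    refine ⟨c, ?_⟩
    have hconj : ρ γ * g * ρ γ⁻¹ = c • g := by
      have := congrArg (fun X => X * g) hc
      simp only [map_mul, Matrix.smul_mul, Matrix.one_mul] at this
      rw [Matrix.mul_assoc, hg, map_inv_mul_map, Matrix.mul_one] at this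
      exact this
    have htrg : g.trace = c * g.trace := by
      have := congrArg Matrix.trace hconj
      rw [Matrix.trace_mul_comm, ← Matrix.mul_assoc, map_inv_mul_map, Matrix.one_mul,
        Matrix.trace_smul, smul_eq_mul] at this
      exact this
    rw [hTdef, Matrix.mul_sub, Matrix.sub_mul, hconj, Matrix.mul_smul, Matrix.smul_mul,
      Matrix.mul_one, map_mul_map_inv, smul_sub, smul_smul]
    congr 2
    rw [mul_div_assoc', ← htrg]
  · -- Case B: some `ρ h₁`, `h₁ ∈ Γ₁`, is not scalar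
    push Not at hsc
    obtain ⟨h₁, hh₁, hns⟩ := hsc
    -- translates of `v` are common eigenvectors of `Γ₁`
    have htrans : ∀ γ, ∀ h ∈ Γ₁, ∃ c : k, ρ h *ᵥ (ρ γ *ᵥ v) = c • (ρ γ *ᵥ v) := by
      intro γ h hh
      obtain ⟨c, hc⟩ := hst _ (hnorm γ h hh)
      refine ⟨c, ?_⟩
      have : ρ h * ρ γ = ρ γ * ρ (γ⁻¹ * h * γ) := by
        rw [← map_mul, ← map_mul]
        congr 1
        group
      rw [Matrix.mulVec_mulVec, this, ← Matrix.mulVec_mulVec, hc, Matrix.mulVec_smul]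
    obtain ⟨a₁, ha₁⟩ := hst h₁ hh₁
    by_cases hall : ∀ γ, det2 v (ρ γ *ᵥ v) = 0
    · exact hL v hv0 (fun γ => exists_smul_of_det2_eq_zero hv0 (hall γ))
    · push Not at hall
      obtain ⟨γ₀, hγ₀⟩ := hall
      have hw0 : ρ γ₀ *ᵥ v ≠ 0 := map_mulVec_ne_zero ρ γ₀ hv0
      obtain ⟨a₂, ha₂⟩ := htrans γ₀ h₁ hh₁
      have ha12 : a₁ ≠ a₂ := by
        rintro rfl
        exact hns a₁ (eq_smul_one_of_two_eigvec hγ₀ ha₁ ha₂)
      have hroot1 : (ρ h₁).charpoly.IsRoot a₁ := isRoot_of_eigvec hv0 ha₁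
      have hroot2 : (ρ h₁).charpoly.IsRoot a₂ := isRoot_of_eigvec hw0 ha₂
      have ha2' : a₂ = (ρ h₁).trace - a₁ := by
        rcases (isRoot_charpoly_iff_of_isRoot hroot1 a₂).1 hroot2 with h | h
        · exact absurd h.symm ha12
        · exact h
      have hγ₀mem : γ₀ ∉ lineStab ρ v hv0 := by
        rintro ⟨c, hc⟩
        apply hγ₀
        rw [hc]
        exact det2_smul_right v c
      have hidx : (lineStab ρ v hv0).index = 2 := by
        apply index_eq_two_of_dichotomy _ γ₀ hγ₀mem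
        intro γ hγ
        have hu0 : ρ γ *ᵥ v ≠ 0 := map_mulVec_ne_zero ρ γ hv0
        obtain ⟨e, he⟩ := htrans γ h₁ hh₁
        have hvu : det2 v (ρ γ *ᵥ v) ≠ 0 := by
          intro h0
          exact hγ (exists_smul_of_det2_eq_zero hv0 h0)
        have hea₁ : e ≠ a₁ := by
          rintro rfl
          exact hns e (eq_smul_one_of_two_eigvec hvu ha₁ he)
        have hroot3 : (ρ h₁).charpoly.IsRoot e := isRoot_of_eigvec hu0 he
        have hea₂ : e = a₂ := by
          rcases (isRoot_charpoly_iff_of_isRoot hroot1 e).1 hroot3 with h | h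
          · exact absurd h hea₁
          · rw [ha2']; exact h
        have hwu : det2 (ρ γ₀ *ᵥ v) (ρ γ *ᵥ v) = 0 := by
          by_contra h0
          rw [hea₂] at he
          exact hns a₂ (eq_smul_one_of_two_eigvec h0 ha₂ he)
        obtain ⟨d, hd⟩ := exists_smul_of_det2_eq_zero hw0 hwu
        refine ⟨d, ?_⟩
        rw [map_mul, ← Matrix.mulVec_mulVec, hd, Matrix.mulVec_smul,
          Matrix.mulVec_mulVec, map_inv_mul_map, Matrix.one_mulVec]
      exact hI2 _ hidx v hv0 (fun γ hγ => hγ)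

/-! ### summary over `k` from the hypotheses over `K` -/

/-- All matrix hypotheses over `k` from the two frozen-type hypotheses over a field `K ⊇ k` in
which every element is a square. -/
theorem clifford_of_hyps (h2 : (2 : k) ≠ 0) (K : Type*) [Field K] [Algebra k K]
    (hsq : ∀ a : K, ∃ t : K, t * t = a) {ρ : Γ →* Matrix (Fin 2) (Fin 2) k}
    (habs : NoStableLine (mapK K ρ)) (htw : HtwK K ρ) :
    NoStableLine ρ ∧ NoQuadSym ρ ∧
      ∀ Γ₁ : Subgroup Γ, (∀ a b : Γ, a * b * a⁻¹ * b⁻¹ ∈ Γ₁) → NoStableLineOn ρ Γ₁ := by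
  have h2K : (2 : K) ≠ 0 := by
    intro h
    apply h2
    apply (algebraMap k K).injective
    rw [map_ofNat, map_zero, h]
  have hL : NoStableLine ρ := noStableLine_of_habsK K habs
  have hQ : NoQuadSym ρ := noQuadSym_of_mapK K (noQuadSym_of_sq h2K hsq habs htw)
  refine ⟨hL, hQ, fun Γ₁ hab => ?_⟩
  exact noStableLineOn_of_commutators h2 hL hQ
    (fun Γ' hΓ' => noStableLineOn_of_mapK K (htw Γ' hΓ')) Γ₁ hab

end Fermat.Agent.GP.TW.Grp
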